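import Fermat.Agent.S27.Grp.Spec

/-!
# Row S27, block GRP, leaf ALG-ASSOC (helper478): associativity of tensor products of gluing data

`tensAssoc : Grp.Stmt.TensAssoc` : if `X = G ⊗ G'`, `Y = X ⊗ G''`, `Z = G' ⊗ G''`, `W = G ⊗ Z`
then `Y ≅ W`.

Over one ring: bilinear maps `α : N × N' → X`, `β : X × N'' → Y`, `γ : N' × N'' → Z`,
`δ : N × Z → W` with bijective lifts give `assocEquiv : Y ≃ₗ W` with
`β (α n n') n'' ↦ δ n (γ n' n'')`; the elements `β (α n n') n''` generate `Y` additively.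
-/

set_option autoImplicit false
universe u
open scoped TensorProduct

namespace Fermat.Agent.S27.H478

open Fermat.Agent.S25 Fermat.Agent.S27

section OneRing

variable {R : Type*} [CommRing R] {N N' N'' X Y Z W : Type*}
  [AddCommGroup N] [AddCommGroup N'] [AddCommGroup N''] [AddCommGroup X] [AddCommGroup Y]
  [AddCommGroup Z] [AddCommGroup W] [Module R N] [Module R N'] [Module R N''] [Module R X]
  [Module R Y] [Module R Z] [Module R W]
  (α : N →ₗ[R] N' →ₗ[R] X) (β : X →ₗ[R] N'' →ₗ[R] Y) (γ : N' →ₗ[R] N'' →ₗ[R] Z)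
  (δ : N →ₗ[R] Z →ₗ[R] W)
  (hα : Function.Bijective (TensorProduct.lift α)) (hβ : Function.Bijective (TensorProduct.lift β))
  (hγ : Function.Bijective (TensorProduct.lift γ)) (hδ : Function.Bijective (TensorProduct.lift δ))

/-- `(N ⊗ N') ⊗ N'' ≅ N ⊗ (N' ⊗ N'')`, transported to models of the tensor products. -/
noncomputable def assocEquiv : Y ≃ₗ[R] W :=
  (LinearEquiv.ofBijective (TensorProduct.lift β) hβ).symm ≪≫ₗ
    (TensorProduct.congr (LinearEquiv.ofBijective (TensorProduct.lift α) hα).symm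
      (LinearEquiv.refl R N'')) ≪≫ₗ
    TensorProduct.assoc R N N' N'' ≪≫ₗ
    (TensorProduct.congr (LinearEquiv.refl R N)
      (LinearEquiv.ofBijective (TensorProduct.lift γ) hγ)) ≪≫ₗ
    LinearEquiv.ofBijective (TensorProduct.lift δ) hδ

theorem assocEquiv_apply (n : N) (n' : N') (n'' : N'') :
    assocEquiv α β γ δ hα hβ hγ hδ (β (α n n') n'') = δ n (γ n' n'') := by
  have h1 : (LinearEquiv.ofBijective (TensorProduct.lift β) hβ).symm (β (α n n') n'') =
      (α n n') ⊗ₜ[R] n'' := by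
    rw [LinearEquiv.symm_apply_eq]
    simp
  have h2 : (LinearEquiv.ofBijective (TensorProduct.lift α) hα).symm (α n n') = n ⊗ₜ[R] n' := by
    rw [LinearEquiv.symm_apply_eq]
    simp
  simp only [assocEquiv, LinearEquiv.trans_apply, h1, TensorProduct.congr_tmul, h2,
    LinearEquiv.refl_apply, TensorProduct.assoc_tmul, LinearEquiv.ofBijective_apply,
    TensorProduct.lift.tmul]

include hα hβ in
/-- The elements `β (α n n') n''` generate `Y` as an additive group. -/
theorem induction_triple {P : Y → Prop} (h0 : P 0) (hadd : ∀ y y', P y → P y' → P (y + y'))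
    (h : ∀ n n' n'', P (β (α n n') n'')) (y : Y) : P y := by
  obtain ⟨t, rfl⟩ := hβ.2 y
  induction t using TensorProduct.induction_on with
  | zero => simpa using h0
  | add t t' ht ht' => rw [map_add]; exact hadd _ _ ht ht'
  | tmul x n'' =>
    obtain ⟨s, rfl⟩ := hα.2 x
    rw [TensorProduct.lift.tmul]
    induction s using TensorProduct.induction_on with
    | zero => simpa using h0
    | add s s' hs hs' => rw [map_add, map_add, LinearMap.add_apply]; exact hadd _ _ hs hs'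
    | tmul n n' => rw [TensorProduct.lift.tmul]; exact h n n' n''

end OneRing

section Main

variable {A R₀ R₁ R₀₁ : Type u} [CommRing A] [CommRing R₀] [CommRing R₁]
    [CommRing R₀₁] [Algebra A R₀] [Algebra A R₁] [Algebra A R₀₁] [Algebra R₀ R₀₁]
    [Algebra R₁ R₀₁] [IsScalarTower A R₀ R₀₁] [IsScalarTower A R₁ R₀₁]

/-- Associativity of tensor products of gluing data, on the level of tensor maps. -/
noncomputable def assocIso {G G' G'' X Y Z W : GlueDatum A R₀ R₁ R₀₁} (a : TensorMaps G G' X)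
    (b : TensorMaps X G'' Y) (c : TensorMaps G' G'' Z) (d : TensorMaps G Z W) :
    GlueDatum.Iso Y W where
  e₀ := assocEquiv a.β₀ b.β₀ c.β₀ d.β₀ a.bijective₀ b.bijective₀ c.bijective₀ d.bijective₀
  e₁ := assocEquiv a.β₁ b.β₁ c.β₁ d.β₁ a.bijective₁ b.bijective₁ c.bijective₁ d.bijective₁
  e₀₁ := assocEquiv a.β₀₁ b.β₀₁ c.β₀₁ d.β₀₁ a.bijective₀₁ b.bijective₀₁ c.bijective₀₁
    d.bijective₀₁
  comm₀ := by
    intro s
    refine induction_triple a.β₀ b.β₀ a.bijective₀ b.bijective₀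
      (P := fun s => assocEquiv a.β₀₁ b.β₀₁ c.β₀₁ d.β₀₁ a.bijective₀₁ b.bijective₀₁
        c.bijective₀₁ d.bijective₀₁ (Y.r₀ s) =
        W.r₀ (assocEquiv a.β₀ b.β₀ c.β₀ d.β₀ a.bijective₀ b.bijective₀ c.bijective₀
          d.bijective₀ s)) ?_ ?_ ?_ s
    · simp
    · intro y y' hy hy'
      simp only [map_add, hy, hy']
    · intro n n' n''
      rw [assocEquiv_apply, ← b.comm₀, ← a.comm₀, assocEquiv_apply, c.comm₀, d.comm₀]
  comm₁ := by
    intro s
    refine induction_triple a.β₁ b.β₁ a.bijective₁ b.bijective₁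
      (P := fun s => assocEquiv a.β₀₁ b.β₀₁ c.β₀₁ d.β₀₁ a.bijective₀₁ b.bijective₀₁
        c.bijective₀₁ d.bijective₀₁ (Y.r₁ s) =
        W.r₁ (assocEquiv a.β₁ b.β₁ c.β₁ d.β₁ a.bijective₁ b.bijective₁ c.bijective₁
          d.bijective₁ s)) ?_ ?_ ?_ s
    · simp
    · intro y y' hy hy'
      simp only [map_add, hy, hy']
    · intro n n' n''
      rw [assocEquiv_apply, ← b.comm₁, ← a.comm₁, assocEquiv_apply, c.comm₁, d.comm₁]

end Main

/-- **TENS-ASSOC.** -/
theorem tensAssoc : Grp.Stmt.TensAssoc.{u} := by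
  intro A R₀ R₁ R₀₁ _ _ _ _ _ _ _ _ _ _ _ G G' G'' X Y Z W ⟨a⟩ ⟨b⟩ ⟨c⟩ ⟨d⟩
  exact ⟨assocIso a b c d⟩

end Fermat.Agent.S27.H478
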